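import Mathlib
import Fermat.Agent.S05.KerRed

/-!
# S13, block (I): the geometric elliptic sequence of a point

For a point `P` of a Weierstrass curve over a field such that `j • P ≠ 0` for `1 ≤ j ≤ N`, the
sequence `gs` defined by `g₀ = 0`, `g₁ = 1`, `g₂ = ψ₂(P)`,
`g_{j+1} g_{j-1} = g_j² (x(P) - x(jP))` satisfies
`g_{m+k} g_{m-k} = g_m² g_k² (x(kP) - x(mP))` (theorem `star`), by induction on `k`, using only
the formulas for `x(U+V) + x(U-V)` and `x(U+V) x(U-V)` and the symmetry of the three-point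
biquadratic `Q3`.
-/

set_option autoImplicit false

namespace Fermat.Agent.S13.DivPoly

open WeierstrassCurve Fermat.Agent.S05.KerRed

variable {K : Type*} [Field K] [DecidableEq K] (W : WeierstrassCurve K)

/-- The three-point biquadratic: `Q3 (x U) (x V) c = 0` iff `c` is `x (U ± V)`. -/
def Q3 (A B C : K) : K :=
  A ^ 2 * B ^ 2 + B ^ 2 * C ^ 2 + C ^ 2 * A ^ 2 - 2 * A * B * C * (A + B + C) - W.b₂ * A * B * C -
    W.b₄ * (A * B + B * C + C * A) - W.b₆ * (A + B + C) - W.b₈

omit [DecidableEq K] in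
theorem Q3_rot (A B C : K) : Q3 W A B C = Q3 W B C A := by
  unfold Q3; ring

omit [DecidableEq K] in
theorem Q3_swap (A B C : K) : Q3 W A B C = Q3 W B A C := by
  unfold Q3; ring

omit [DecidableEq K] in
theorem Q3_diag (A x : K) :
    Q3 W A x x = (x ^ 4 - W.b₄ * x ^ 2 - 2 * W.b₆ * x - W.b₈) -
      A * (4 * x ^ 3 + W.b₂ * x ^ 2 + 2 * W.b₄ * x + W.b₆) := by
  unfold Q3; ring

/-- The three-point relation. -/
theorem three_point {U V : W.toAffine.Point} (hU : U ≠ 0) (hV : V ≠ 0)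
    (hne : xc W U ≠ xc W V) (c : K) :
    (xc W U - xc W V) ^ 2 * ((xc W (U + V) - c) * (xc W (U - V) - c)) =
      Q3 W (xc W U) (xc W V) c := by
  rcases U with _ | ⟨x₁, y₁, h₁⟩
  · exact absurd rfl hU
  rcases V with _ | ⟨x₂, y₂, h₂⟩
  · exact absurd rfl hV
  have hx : x₁ ≠ x₂ := hne
  have hs := xc_add_add_xc_sub W h₁ h₂ hx
  have hp := xc_add_mul_xc_sub W h₁ h₂ hx
  simp only [xc_some] at hs hp ⊢
  unfold Q3
  linear_combination hp - c * hs

/-- The value of `ψ₂` at a point (`0` at the origin). -/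
def psi2 : W.toAffine.Point → K
  | .zero => 0
  | .some x y _ => 2 * y + W.a₁ * x + W.a₃

/-- The value of `Ψ₂Sq` at `x`. -/
def f2 (x : K) : K := 4 * x ^ 3 + W.b₂ * x ^ 2 + 2 * W.b₄ * x + W.b₆

/-- The value of `Φ₂` at `x`. -/
def phi2 (x : K) : K := x ^ 4 - W.b₄ * x ^ 2 - 2 * W.b₆ * x - W.b₈

omit [DecidableEq K] in
theorem psi2_sq {P : W.toAffine.Point} (hP : P ≠ 0) : psi2 W P ^ 2 = f2 W (xc W P) := by
  rcases P with _ | ⟨x, y, h⟩
  · exact absurd rfl hP
  have e := (Affine.equation_iff _ _).mp h.1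
  simp only [psi2, f2, xc_some, WeierstrassCurve.b₂, WeierstrassCurve.b₄, WeierstrassCurve.b₆]
  linear_combination 4 * e

theorem psi2_ne_zero {P : W.toAffine.Point} (h2 : 2 • P ≠ 0) : psi2 W P ≠ 0 := by
  rcases P with _ | ⟨x, y, h⟩
  · exact absurd (smul_zero 2) h2
  intro h0
  apply h2
  have hy : y = W.toAffine.negY x y := by
    simp only [psi2] at h0
    simp only [Affine.negY]
    linear_combination h0
  rw [two_nsmul]
  exact Affine.Point.add_of_Y_eq rfl hy

theorem dbl {P : W.toAffine.Point} (h2 : 2 • P ≠ 0) :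
    f2 W (xc W P) * xc W (2 • P) = phi2 W (xc W P) := by
  rcases P with _ | ⟨x, y, h⟩
  · exact absurd (smul_zero 2) h2
  have hy : y ≠ W.toAffine.negY x y := by
    intro hy
    apply h2
    rw [two_nsmul]
    exact Affine.Point.add_of_Y_eq rfl hy
  have := (xc_double W h hy).2
  rw [two_nsmul]
  simpa only [f2, phi2, xc_some] using this

/-! ### The sequence -/

variable (P : W.toAffine.Point)

/-- `x (j • P)`. -/
def Xs (j : ℕ) : K := xc W (j • P)

theorem Xs_one : Xs W P 1 = xc W P := by simp [Xs]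

/-- The geometric elliptic sequence of `P`. -/
noncomputable def gs : ℕ → K
  | 0 => 0
  | 1 => 1
  | 2 => psi2 W P
  | (j + 3) => gs (j + 2) ^ 2 * (xc W P - Xs W P (j + 2)) / gs (j + 1)

@[simp] theorem gs_zero : gs W P 0 = 0 := by simp [gs]

@[simp] theorem gs_one : gs W P 1 = 1 := by simp [gs]

@[simp] theorem gs_two : gs W P 2 = psi2 W P := by simp [gs]

theorem gs_succ (j : ℕ) :
    gs W P (j + 3) = gs W P (j + 2) ^ 2 * (xc W P - Xs W P (j + 2)) / gs W P (j + 1) := by
  rw [gs]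

variable {W P}

section Order

variable {N : ℕ} (hN : ∀ j : ℕ, 1 ≤ j → j ≤ N → j • P ≠ 0)

include hN

theorem Xs_ne {i j : ℕ} (hj : 1 ≤ j) (hij : j < i) (hi : i + j ≤ N) : Xs W P i ≠ Xs W P j := by
  intro h
  have hi0 : i • P ≠ 0 := hN i (by omega) (by omega)
  have hj0 : j • P ≠ 0 := hN j hj (by omega)
  rcases eq_or_eq_neg_of_xc_eq hi0 hj0 h with h1 | h1
  · apply hN (i - j) (by omega) (by omega)
    rw [sub_nsmul P hij.le, h1, add_neg_cancel]
  · apply hN (i + j) (by omega) hi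
    rw [add_nsmul, h1, neg_add_cancel]

theorem gs_ne_zero : ∀ j : ℕ, 1 ≤ j → j ≤ N → gs W P j ≠ 0
  | 0, h, _ => absurd h (by omega)
  | 1, _, _ => by simp
  | 2, _, h => by
    rw [gs_two]
    exact psi2_ne_zero W (hN 2 (by omega) h)
  | (j + 3), _, h => by
    rw [gs_succ]
    have h1 := gs_ne_zero (j + 2) (by omega) (by omega)
    have h2 := gs_ne_zero (j + 1) (by omega) (by omega)
    have h3 : Xs W P (j + 2) ≠ Xs W P 1 := Xs_ne hN le_rfl (by omega) (by omega)
    rw [Xs_one] at h3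
    exact div_ne_zero (mul_ne_zero (pow_ne_zero 2 h1) (sub_ne_zero.mpr (Ne.symm h3))) h2

/-- The defining recursion, in multiplicative form. -/
theorem gs_rec : ∀ j : ℕ, j + 1 ≤ N →
    gs W P (j + 2) * gs W P j = gs W P (j + 1) ^ 2 * (xc W P - Xs W P (j + 1))
  | 0, _ => by simp [Xs_one]
  | (j + 1), h => by
    have h2 := gs_ne_zero hN (j + 1) (by omega) (by omega)
    rw [show j + 1 + 2 = j + 3 by ring, show j + 1 + 1 = j + 2 by ring, gs_succ]
    field_simp


/-- The three-point relation for multiples of `P`. -/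
theorem three_point_mul {i j : ℕ} (hj : 1 ≤ j) (hij : j < i) (hi : i + j ≤ N) (c : K) :
    (Xs W P i - Xs W P j) ^ 2 * ((Xs W P (i + j) - c) * (Xs W P (i - j) - c)) =
      Q3 W (Xs W P i) (Xs W P j) c := by
  have hi0 : i • P ≠ 0 := hN i (by omega) (by omega)
  have hj0 : j • P ≠ 0 := hN j hj (by omega)
  have h := three_point W hi0 hj0 (Xs_ne hN hj hij hi) c
  have e1 : i • P + j • P = (i + j) • P := (add_nsmul P i j).symm
  have e2 : i • P - j • P = (i - j) • P := by
    rw [sub_eq_add_neg, ← sub_nsmul P hij.le]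
  rw [e1, e2] at h
  exact h

/-- **The key relation** `g_{m+k} g_{m-k} = g_m² g_k² (x(kP) - x(mP))`, with `m = k + d`. -/
theorem star : ∀ k : ℕ, 1 ≤ k → ∀ d : ℕ, 1 ≤ d → 2 * k + d ≤ N + 1 →
    gs W P (2 * k + d) * gs W P d =
      gs W P (k + d) ^ 2 * gs W P k ^ 2 * (Xs W P k - Xs W P (k + d)) := by
  intro k
  induction k using Nat.strong_induction_on with
  | _ k ih =>
  intro hk d hd hkd
  rcases Nat.lt_or_ge k 3 with hk3 | hk3
  · interval_cases k
    · -- `k = 1`
      have r := gs_rec hN d (by omega)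
      rw [show 2 * 1 + d = d + 2 by ring, show 1 + d = d + 1 by ring, gs_one, Xs_one]
      linear_combination r
    · -- `k = 2`
      have r1 := gs_rec hN (d + 2) (by omega)
      have r2 := gs_rec hN d (by omega)
      have r3 := gs_rec hN (d + 1) (by omega)
      have tp := three_point_mul hN (i := d + 2) (j := 1) le_rfl (by omega) (by omega) (xc W P)
      rw [show d + 2 + 1 = d + 3 by ring, show d + 2 - 1 = d + 1 by omega, Xs_one, Q3_diag W] at tp
      rw [show d + 2 + 2 = d + 4 by ring, show d + 2 + 1 = d + 3 by ring] at r1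
      rw [show d + 1 + 2 = d + 3 by ring, show d + 1 + 1 = d + 2 by ring] at r3
      have hd2 := dbl W (hN 2 (by omega) (by omega))
      have hP0 : P ≠ 0 := by
        have := hN 1 le_rfl (by omega)
        rwa [one_nsmul] at this
      have hψ := psi2_sq W hP0
      have hgm := gs_ne_zero hN (d + 2) (by omega) (by omega)
      rw [show 2 * 2 + d = d + 4 by ring, show 2 + d = d + 2 by ring, gs_two]
      have key : (gs W P (d + 4) * gs W P d) * gs W P (d + 2) ^ 2 =
          (gs W P (d + 2) ^ 2 * psi2 W P ^ 2 * (Xs W P 2 - Xs W P (d + 2))) *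
            gs W P (d + 2) ^ 2 := by
        have hX2 : Xs W P 2 = xc W (2 • P) := rfl
        rw [hψ, hX2]
        simp only [f2, phi2] at hd2 ⊢
        linear_combination (gs W P (d + 2) * gs W P d) * r1 +
          gs W P (d + 3) ^ 2 * (xc W P - Xs W P (d + 3)) * r2 +
          (gs W P (d + 3) * gs W P (d + 1) + gs W P (d + 2) ^ 2 * (xc W P - Xs W P (d + 2))) *
            ((Xs W P (d + 3) - xc W P) * (Xs W P (d + 1) - xc W P)) * r3 +
          gs W P (d + 2) ^ 4 * tp - gs W P (d + 2) ^ 4 * hd2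
      exact mul_right_cancel₀ (pow_ne_zero 2 hgm) key
  · -- `k ≥ 3`
    obtain ⟨k', rfl⟩ : ∃ k', k = k' + 3 := ⟨k - 3, by omega⟩
    have h1 := gs_rec hN (2 * k' + 4 + d) (by omega)
    have h2 := gs_rec hN d (by omega)
    have h3 := gs_rec hN (k' + 1) (by omega)
    have h4 := ih (k' + 2) (by omega) (by omega) (d + 1) (by omega) (by omega)
    have h5 := ih (k' + 1) (by omega) (by omega) (d + 2) (by omega) (by omega)
    have h6 := three_point_mul hN (i := k' + 3 + d) (j := k' + 2) (by omega) (by omega) (by omega)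
      (xc W P)
    have h7 := three_point_mul hN (i := k' + 2) (j := 1) le_rfl (by omega) (by omega)
      (Xs W P (k' + 3 + d))
    rw [show 2 * k' + 4 + d + 2 = 2 * k' + 6 + d by ring,
      show 2 * k' + 4 + d + 1 = 2 * k' + 5 + d by ring] at h1
    rw [show k' + 1 + 2 = k' + 3 by ring, show k' + 1 + 1 = k' + 2 by ring] at h3
    rw [show 2 * (k' + 2) + (d + 1) = 2 * k' + 5 + d by ring,
      show k' + 2 + (d + 1) = k' + 3 + d by ring] at h4
    rw [show 2 * (k' + 1) + (d + 2) = 2 * k' + 4 + d by ring,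
      show k' + 1 + (d + 2) = k' + 3 + d by ring] at h5
    rw [show k' + 3 + d + (k' + 2) = 2 * k' + 5 + d by ring,
      show k' + 3 + d - (k' + 2) = d + 1 by omega] at h6
    rw [show k' + 2 + 1 = k' + 3 by ring, show k' + 2 - 1 = k' + 1 by omega, Xs_one,
      ← Q3_rot] at h7
    have hD : Xs W P (k' + 3 + d) - Xs W P (k' + 2) ≠ 0 :=
      sub_ne_zero.mpr (Xs_ne hN (by omega) (by omega) (by omega))
    have he := gs_ne_zero hN (2 * k' + 4 + d) (by omega) (by omega)
    have hf := gs_ne_zero hN (d + 2) (by omega) (by omega)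
    rw [show 2 * (k' + 3) + d = 2 * k' + 6 + d by ring]
    set a := gs W P (2 * k' + 6 + d)
    set b := gs W P d
    set c := gs W P (2 * k' + 5 + d)
    set dd := gs W P (d + 1)
    set e := gs W P (2 * k' + 4 + d)
    set f := gs W P (d + 2)
    set gm := gs W P (k' + 3 + d)
    set gk := gs W P (k' + 3)
    set gk1 := gs W P (k' + 2)
    set gk2 := gs W P (k' + 1)
    set x := xc W P
    set x1 := Xs W P (2 * k' + 5 + d)
    set x2 := Xs W P (d + 1)
    set xm := Xs W P (k' + 3 + d)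
    set xk := Xs W P (k' + 3)
    set xk1 := Xs W P (k' + 2)
    set xk2 := Xs W P (k' + 1)
    set Q := Q3 W xm xk1 x
    have stepA : (a * b) * (e * f) * (xm - xk1) ^ 2 =
        (gm ^ 4 * gk1 ^ 4 * Q) * (xm - xk1) ^ 2 := by
      linear_combination (f * b) * (xm - xk1) ^ 2 * h1 +
        c ^ 2 * (x - x1) * (xm - xk1) ^ 2 * h2 + c ^ 2 * dd ^ 2 * h6 +
        (c * dd + gm ^ 2 * gk1 ^ 2 * (xk1 - xm)) * Q * h4
    have stepA' : (a * b) * (e * f) = gm ^ 4 * gk1 ^ 4 * Q :=
      mul_right_cancel₀ (pow_ne_zero 2 hD) stepA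
    have stepB : gm ^ 4 * gk1 ^ 4 * Q = (gm ^ 2 * gk ^ 2 * (xk - xm)) * (e * f) := by
      linear_combination (-(gm ^ 4 * gk1 ^ 4)) * h7 +
        (-(gm ^ 4 * (xk - xm) * (xk2 - xm) * (gk * gk2 + gk1 ^ 2 * (x - xk1)))) * h3 +
        (-(gm ^ 2 * gk ^ 2 * (xk - xm))) * h5
    exact mul_right_cancel₀ (mul_ne_zero he hf) (stepA'.trans stepB)

end Order

end Fermat.Agent.S13.DivPoly
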